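/-
Programme DS (S48), chapter G-DIM, brick DIM-5 (helper89; generalised from `ℚbar` to an arbitrary coefficient field `(Lc, ι : Lc →+* ℂ)` by helper26): generic twin of `S20/CuspZero.lean`.

The level-free lemmas of the original (`isZeroAtImInfty_of_qn_mul`, `slash_mul_eq`,
`qCoeff_of_mul_eq`, `coeff_div_eq_zero_of_neg`, ...) are imported as they are; this file redoes the
level-keyed part against `(L : LevelData) (D : RealizeDataL L Lc ι) (C : CuspDataL L Lc ι D)`: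

* `cuspFormOfHol` : a holomorphic function on `ℍ` of weight 2 for a finite index subgroup `Gam` of
  `SL(2, ℤ)` vanishing at all cusps, as an element of `CuspForm Gam 2`;
* `slash_eq_of_mul_eq` : weight two for `Gam` from a defining equation `H * a = b * J`;
* `exists_cuspForm_of_orders(_full)(')` : the cusp half of the dictionary
  "regular differential ⇒ cusp form", for an interface pair `(D, C)` of level `L`.

The only extra hypothesis on the level is `hT : ModularGroup.T ∈ L.Gam` (the cusp `∞` has width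
one, so that Mathlib's `qCoeff` are the coefficients of the `q`-expansion in `q = exp(2πiz)`).
-/
import Fermat.Agent.DS.G.Level
import Fermat.Agent.DS.G.X0.Realize
import Fermat.Agent.S20.CuspZero

set_option autoImplicit false
set_option linter.unusedSectionVars false

open ModularCurve UpperHalfPlane ModularForm
open scoped Topology Manifold MatrixGroups

noncomputable section

namespace Fermat.Agent.DS.G.S20.CuspZero

open Fermat.Agent.X0 Fermat.Agent.X0.Analytic Fermat.Agent.X0.JQExp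
open Fermat.Agent.DS.G.Level Fermat.Agent.DS.G.X0.Realize
open Fermat.Agent.S20.CuspZero (isZeroAtImInfty_of_qn_mul slash_mul_eq qCoeff_of_mul_eq
  coeff_div_eq_zero_of_neg coeff_mul_eq_zero_of_lt coeff_qExpand_eq_zero_of_lt)

/-! ### Packaging a cusp form -/

/-- A holomorphic function of weight 2 for a finite index subgroup `Gam ≤ SL(2, ℤ)` which vanishes
at all cusps, as a cusp form. -/
def cuspFormOfHol (Gam : Subgroup SL(2, ℤ)) [Gam.FiniteIndex] (f : ℍ → ℂ) (hf : f ∈ HolH)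
    (hinv : ∀ γ ∈ Gam, f ∣[(2 : ℤ)] γ = f)
    (hzero : ∀ γ : SL(2, ℤ), IsZeroAtImInfty (f ∣[(2 : ℤ)] γ)) :
    CuspForm (Gam : Subgroup (GL (Fin 2) ℝ)) 2 where
  toFun := f
  slash_action_eq' A hA := by
    obtain ⟨γ, hγ, rfl⟩ := hA
    exact hinv γ hγ
  holo' := hf
  zero_at_cusps' {c} hc := by
    rw [Subgroup.IsArithmetic.isCusp_iff_isCusp_SL2Z] at hc
    rw [OnePoint.isZeroAt_iff_forall_SL2Z hc]
    intro γ _
    exact hzero γ

@[simp] theorem coe_cuspFormOfHol (Gam : Subgroup SL(2, ℤ)) [Gam.FiniteIndex] (f : ℍ → ℂ)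
    (hf : f ∈ HolH) (hinv : ∀ γ ∈ Gam, f ∣[(2 : ℤ)] γ = f)
    (hzero : ∀ γ : SL(2, ℤ), IsZeroAtImInfty (f ∣[(2 : ℤ)] γ)) :
    (cuspFormOfHol Gam f hf hinv hzero : ℍ → ℂ) = f := rfl

/-- The cusp `∞` has width one as soon as `T ∈ Gam`. -/
theorem one_mem_strictPeriods_of_T_mem {Gam : Subgroup SL(2, ℤ)} (hT : ModularGroup.T ∈ Gam) :
    (1 : ℝ) ∈ (Gam : Subgroup (GL (Fin 2) ℝ)).strictPeriods := by
  rw [Subgroup.strictPeriods_eq_zmultiples_one_of_T_mem hT]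
  exact AddSubgroup.mem_zmultiples (1 : ℝ)

/-! ### Weight two from a defining equation -/

/-- Weight two for `Gam` from the defining equation. -/
theorem slash_eq_of_mul_eq (Gam : Subgroup SL(2, ℤ)) {H a b J : ℍ → ℂ} (hH : H ∈ HolH)
    (ha : a ∈ HolH) (ha0 : a ≠ 0) (hmul : ∀ z, H z * a z = b z * J z)
    (hJ : ∀ (γ : SL(2, ℤ)) (z : ℍ), J (γ • z) = denom γ z ^ 2 * J z)
    (hainv : ∀ γ ∈ Gam, compSL a γ = a)
    (hbinv : ∀ γ ∈ Gam, compSL b γ = b)
    (γ : SL(2, ℤ)) (hγ : γ ∈ Gam) : H ∣[(2 : ℤ)] γ = H := by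
  have hH' : H ∣[(2 : ℤ)] γ ∈ HolH := by
    have : MDifferentiable 𝓘(ℂ) 𝓘(ℂ) (H ∣[(2 : ℤ)] (γ : GL (Fin 2) ℝ)) :=
      MDifferentiable.slash hH 2 _
    exact this
  have hzero : (H ∣[(2 : ℤ)] γ - H) * a = 0 := by
    funext z
    have h1 := slash_mul_eq hmul hJ γ z
    rw [hainv γ hγ, hbinv γ hγ] at h1
    simp only [Pi.mul_apply, Pi.sub_apply, Pi.zero_apply]
    rw [sub_mul, h1, hmul z, sub_self]
  rcases mul_eq_zero_HolH (HolH.sub_mem hH' hH) ha hzero with h | h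
  · exact sub_eq_zero.mp h
  · exact absurd h ha0

/-! ### Assembly for an interface pair `(D, C)` -/

section Assembly

variable (L : LevelData) {Lc : Type} [Field Lc] [Algebra ℚ Lc] {ι : Lc →+* ℂ} (D : RealizeDataL L Lc ι)
  (C : CuspDataL L Lc ι D)

/-- `C.T γ u` is the `q_w`-expansion of `Θ u ∘ γ` (twin of `X0.intg_T_spec`). -/
theorem intg_T_spec (γ : SL(2, ℤ)) (u : Rsubc L Lc) :
    IntgQN L.w (compSL (D.Θ u) γ) (toCι ι (C.T γ (u : FFc L Lc))) := by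
  obtain ⟨m, P, hP, hT⟩ := C.spec γ u
  rw [hT, toCι, lor_coeffMap_laurentOf]
  exact intg_qn_of_isQExp L.w hP

/-- The (level one) `q`-expansion of `Θ u` is the formal element `u`. -/
theorem hasQExp_Θ (u : Rsubc L Lc) :
    HasQExp (toCι ι ((u : FFc L Lc) : LaurentSeries Lc)) (D.Θ u) := by
  obtain ⟨m, P, hP, hu⟩ := D.isQExp u
  rw [hu, toCι, lor_coeffMap_laurentOf]
  exact intg_hasQExp_of_isQExp hP

/-- **LOW, cusp half.** Let `H` be holomorphic on `ℍ` with `H * Θ s = Θ r * DJ`, where `DJ` has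
weight two for `SL(2,ℤ)` and `q`-expansion `ΘJ` (of order `≥ -1`).  If all expansions
`T_γ (r/s)` have order `> w`, then `H` is a cusp form of weight two on `L.Gam` whose
`q`-coefficients are those of `(r/s) * ΘJ` (mapped by `ι`). -/
theorem exists_cuspForm_of_orders (hT : ModularGroup.T ∈ L.Gam)
    (DJ : ℍ → ℂ) (ΘJ : LaurentSeries Lc)
    (hDJw : ∀ (γ : SL(2, ℤ)) (z : ℍ), DJ (γ • z) = denom γ z ^ 2 * DJ z)
    (hDJq : HasQExp (toCι ι ΘJ) DJ) (hΘJ : ∀ n : ℤ, n < -1 → ΘJ.coeff n = 0)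
    (r s : Rsubc L Lc) (hs : s ≠ 0) (H : ℍ → ℂ) (hH : H ∈ HolH)
    (hmul : ∀ z, H z * D.Θ s z = D.Θ r z * DJ z)
    (hord : ∀ (γ : SL(2, ℤ)) (n : ℤ), n ≤ L.w →
      (C.T γ ((r : FFc L Lc) / (s : FFc L Lc))).coeff n = 0) :
    ∃ f : CuspForm (L.Gam : Subgroup (GL (Fin 2) ℝ)) 2, (⇑f = H) ∧
      ∀ n : ℕ, ModularFormClass.qCoeff f n
        = ι (((((r : FFc L Lc) / (s : FFc L Lc) : FFc L Lc) : LaurentSeries Lc) * ΘJ).coeff n) := by
  have hs' : (s : FFc L Lc) ≠ 0 := fun h => hs (Subtype.ext h)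
  have hΘs0 : D.Θ s ≠ 0 := by
    intro h
    apply hs
    apply D.injective
    rw [h, map_zero]
  -- weight two
  have hinv : ∀ γ ∈ L.Gam, H ∣[(2 : ℤ)] γ = H := fun γ hγ =>
    slash_eq_of_mul_eq L.Gam hH (D.mem_HolH s) hΘs0 hmul hDJw (fun γ hγ => D.invariant s γ hγ)
      (fun γ hγ => D.invariant r γ hγ) γ hγ
  -- vanishing at the cusps
  have hY : ∀ n : ℤ, n < -(L.w : ℤ) → (qExpand ℂ L.w (toCι ι ΘJ)).coeff n = 0 := by
    apply coeff_qExpand_eq_zero_of_lt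
    intro n hn
    rw [toCι_coeff, hΘJ n hn, map_zero]
  have hzero : ∀ γ : SL(2, ℤ), IsZeroAtImInfty (H ∣[(2 : ℤ)] γ) := by
    intro γ
    have hsplit : C.T γ (r : FFc L Lc) = C.T γ ((r : FFc L Lc) / (s : FFc L Lc)) * C.T γ (s : FFc L Lc) := by
      rw [← map_mul, div_mul_cancel₀ _ hs']
    refine isZeroAtImInfty_of_qn_mul L.w (g₁ := compSL (D.Θ s) γ) (g₂ := compSL (D.Θ r) γ * DJ)
      (T₁ := toCι ι (C.T γ (s : FFc L Lc))) (T₂ := toCι ι (C.T γ (r : FFc L Lc)) * qExpand ℂ L.w (toCι ι ΘJ))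
      (E := toCι ι (C.T γ ((r : FFc L Lc) / (s : FFc L Lc))) * qExpand ℂ L.w (toCι ι ΘJ))
      (intg_T_spec L D C γ s) (intg_qn_mul L.w (intg_T_spec L D C γ r) (hDJq.qExpand L.w)) ?_
      (fun z => slash_mul_eq hmul hDJw γ z) ?_ ?_
    · intro h0
      have : C.T γ (s : FFc L Lc) = 0 := (toCι_injective ι ι.injective) (by rw [h0, map_zero])
      exact hs' ((map_eq_zero (C.T γ)).mp this)
    · rw [hsplit, map_mul]
      ring
    · intro n hn
      refine coeff_mul_eq_zero_of_lt _ _ ((L.w : ℤ) + 1) (-(L.w : ℤ)) ?_ hY n (by omega)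
      intro m hm
      rw [toCι_coeff, hord γ m (by omega), map_zero]
  refine ⟨cuspFormOfHol L.Gam H hH hinv hzero, rfl, fun n => ?_⟩
  -- the `q`-coefficients
  have hfper : Function.Periodic (H ∘ ofComplex) 1 := by
    have := SlashInvariantFormClass.periodic_comp_ofComplex (cuspFormOfHol L.Gam H hH hinv hzero)
      (one_mem_strictPeriods_of_T_mem hT)
    exact this
  have hfbdd : IsBoundedAtImInfty H := by
    have := (hzero 1).boundedAtFilter
    rwa [SlashAction.slash_one] at this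
  have hT₁ : toCι ι ((s : FFc L Lc) : LaurentSeries Lc) ≠ 0 := by
    intro h0
    apply hs'
    have : ((s : FFc L Lc) : LaurentSeries Lc) = 0 := (toCι_injective ι ι.injective) (by rw [h0, map_zero])
    exact Subtype.ext this
  have hq := qCoeff_of_mul_eq hfper hH hfbdd (hasQExp_Θ L D s) ((hasQExp_Θ L D r).mul hDJq) hT₁
    hmul n
  rw [coe_cuspFormOfHol, hq, ← toCι_coeff]
  congr 1
  have hcoe : (((r : FFc L Lc) / (s : FFc L Lc) : FFc L Lc) : LaurentSeries Lc)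
      = ((r : FFc L Lc) : LaurentSeries Lc) / ((s : FFc L Lc) : LaurentSeries Lc) := rfl
  rw [hcoe, map_mul, map_div₀]
  ring

/-- `exists_cuspForm_of_orders` together with the vanishing of the negative coefficients of
`(r/s) * ΘJ`. -/
theorem exists_cuspForm_of_orders_full (hT : ModularGroup.T ∈ L.Gam)
    (DJ : ℍ → ℂ) (ΘJ : LaurentSeries Lc)
    (hDJw : ∀ (γ : SL(2, ℤ)) (z : ℍ), DJ (γ • z) = denom γ z ^ 2 * DJ z)
    (hDJq : HasQExp (toCι ι ΘJ) DJ) (hΘJ : ∀ n : ℤ, n < -1 → ΘJ.coeff n = 0)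
    (r s : Rsubc L Lc) (hs : s ≠ 0) (H : ℍ → ℂ) (hH : H ∈ HolH)
    (hmul : ∀ z, H z * D.Θ s z = D.Θ r z * DJ z)
    (hord : ∀ (γ : SL(2, ℤ)) (n : ℤ), n ≤ L.w →
      (C.T γ ((r : FFc L Lc) / (s : FFc L Lc))).coeff n = 0) :
    ∃ f : CuspForm (L.Gam : Subgroup (GL (Fin 2) ℝ)) 2, (⇑f = H) ∧
      (∀ n : ℕ, ModularFormClass.qCoeff f n
        = ι (((((r : FFc L Lc) / (s : FFc L Lc) : FFc L Lc) : LaurentSeries Lc) * ΘJ).coeff n)) ∧
      ∀ k : ℤ, k < 0 →
        ((((r : FFc L Lc) / (s : FFc L Lc) : FFc L Lc) : LaurentSeries Lc) * ΘJ).coeff k = 0 := by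
  obtain ⟨f, hf, hq⟩ :=
    exists_cuspForm_of_orders L D C hT DJ ΘJ hDJw hDJq hΘJ r s hs H hH hmul hord
  refine ⟨f, hf, hq, fun k hk => ?_⟩
  have hs' : (s : FFc L Lc) ≠ 0 := fun h => hs (Subtype.ext h)
  have hfper : Function.Periodic (H ∘ ofComplex) 1 := by
    have := SlashInvariantFormClass.periodic_comp_ofComplex f
      (one_mem_strictPeriods_of_T_mem hT)
    rwa [hf] at this
  have hfbdd : IsBoundedAtImInfty H := by
    have h0 : IsZeroAtImInfty (⇑f) := by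
      have hc : IsCusp OnePoint.infty (L.Gam : Subgroup (GL (Fin 2) ℝ)) :=
        Subgroup.isCusp_of_mem_strictPeriods one_pos (one_mem_strictPeriods_of_T_mem hT)
      have := CuspFormClass.zero_at_cusps f hc
      rwa [OnePoint.isZeroAt_infty_iff] at this
    rw [hf] at h0
    exact h0.boundedAtFilter
  have hT₁ : toCι ι ((s : FFc L Lc) : LaurentSeries Lc) ≠ 0 := by
    intro h0
    apply hs'
    have : ((s : FFc L Lc) : LaurentSeries Lc) = 0 := (toCι_injective ι ι.injective) (by rw [h0, map_zero])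
    exact Subtype.ext this
  have hz := coeff_div_eq_zero_of_neg hfper hH hfbdd (hasQExp_Θ L D s)
    ((hasQExp_Θ L D r).mul hDJq) hT₁ hmul k hk
  have hcoe : (((r : FFc L Lc) / (s : FFc L Lc) : FFc L Lc) : LaurentSeries Lc)
      = ((r : FFc L Lc) : LaurentSeries Lc) / ((s : FFc L Lc) : LaurentSeries Lc) := rfl
  have e : toCι ι ((((r : FFc L Lc) / (s : FFc L Lc) : FFc L Lc) : LaurentSeries Lc) * ΘJ)
      = toCι ι ((r : FFc L Lc) : LaurentSeries Lc) * toCι ι ΘJ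
        / toCι ι ((s : FFc L Lc) : LaurentSeries Lc) := by
    rw [hcoe, map_mul, map_div₀]
    ring
  apply ι.injective
  rw [map_zero, ← toCι_coeff, e]
  exact hz

/-- Order form of the cusp condition, with the vanishing of the negative coefficients. -/
theorem exists_cuspForm_of_orders_full' (hT : ModularGroup.T ∈ L.Gam)
    (DJ : ℍ → ℂ) (ΘJ : LaurentSeries Lc)
    (hDJw : ∀ (γ : SL(2, ℤ)) (z : ℍ), DJ (γ • z) = denom γ z ^ 2 * DJ z)
    (hDJq : HasQExp (toCι ι ΘJ) DJ) (hΘJ : ∀ n : ℤ, n < -1 → ΘJ.coeff n = 0)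
    (r s : Rsubc L Lc) (hs : s ≠ 0) (H : ℍ → ℂ) (hH : H ∈ HolH)
    (hmul : ∀ z, H z * D.Θ s z = D.Θ r z * DJ z)
    (hord : ∀ γ : SL(2, ℤ), (r : FFc L Lc) = 0 ∨
      (L.w : ℤ) < (C.T γ ((r : FFc L Lc) / (s : FFc L Lc))).order) :
    ∃ f : CuspForm (L.Gam : Subgroup (GL (Fin 2) ℝ)) 2, (⇑f = H) ∧
      (∀ n : ℕ, ModularFormClass.qCoeff f n
        = ι (((((r : FFc L Lc) / (s : FFc L Lc) : FFc L Lc) : LaurentSeries Lc) * ΘJ).coeff n)) ∧
      ∀ k : ℤ, k < 0 →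
        ((((r : FFc L Lc) / (s : FFc L Lc) : FFc L Lc) : LaurentSeries Lc) * ΘJ).coeff k = 0 := by
  refine exists_cuspForm_of_orders_full L D C hT DJ ΘJ hDJw hDJq hΘJ r s hs H hH hmul
    fun γ n hn => ?_
  rcases hord γ with h | h
  · rw [h, zero_div, map_zero, HahnSeries.coeff_zero]
  · exact HahnSeries.coeff_eq_zero_of_lt_order (lt_of_le_of_lt hn h)

/-- Order form of the cusp condition. -/
theorem exists_cuspForm_of_orders' (hT : ModularGroup.T ∈ L.Gam)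
    (DJ : ℍ → ℂ) (ΘJ : LaurentSeries Lc)
    (hDJw : ∀ (γ : SL(2, ℤ)) (z : ℍ), DJ (γ • z) = denom γ z ^ 2 * DJ z)
    (hDJq : HasQExp (toCι ι ΘJ) DJ) (hΘJ : ∀ n : ℤ, n < -1 → ΘJ.coeff n = 0)
    (r s : Rsubc L Lc) (hs : s ≠ 0) (H : ℍ → ℂ) (hH : H ∈ HolH)
    (hmul : ∀ z, H z * D.Θ s z = D.Θ r z * DJ z)
    (hord : ∀ γ : SL(2, ℤ), (r : FFc L Lc) = 0 ∨
      (L.w : ℤ) < (C.T γ ((r : FFc L Lc) / (s : FFc L Lc))).order) :
    ∃ f : CuspForm (L.Gam : Subgroup (GL (Fin 2) ℝ)) 2, (⇑f = H) ∧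
      ∀ n : ℕ, ModularFormClass.qCoeff f n
        = ι (((((r : FFc L Lc) / (s : FFc L Lc) : FFc L Lc) : LaurentSeries Lc) * ΘJ).coeff n) := by
  refine exists_cuspForm_of_orders L D C hT DJ ΘJ hDJw hDJq hΘJ r s hs H hH hmul fun γ n hn => ?_
  rcases hord γ with h | h
  · rw [h, zero_div, map_zero, HahnSeries.coeff_zero]
  · exact HahnSeries.coeff_eq_zero_of_lt_order (lt_of_le_of_lt hn h)

end Assembly

end Fermat.Agent.DS.G.S20.CuspZero
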