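/-
Programme DS (S48), chapter G-DIM, brick DIM-5 (helper33): the coefficient-generic part of
`S20/LowDJ.lean` (lines 213-250) and of `S20/CuspZeroDJ.lean` (lines 20-28).

For an arbitrary coefficient field `Lc` (`[Algebra ℚ Lc]`, `ι : Lc →+* ℂ`):
* `thetaNumc Lc : PowerSeries Lc` - the numerator of `θ j = q d/dq j`, `q * θ j = ∑ (n - 1) c_n q^n`;
* `map_thetaNumc`, `isQExp_DJ` - it is the `q`-expansion of `LowDJ.DJ` after `ι`;
* `thetaJc Lc : LaurentSeries Lc` - the formal `θ j ∈ Lc((q))`; `thetaJc_ne_zero`,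
  `coeff_thetaJc_of_lt`, `thetaJc_rat`, `hasQExp_DJ`, and the comparison `thetaJc_Kbar` with the
  original `LowDJ.thetaJ`.
The level-one analytic facts (`DJ`, `thetaDisc`, `tps_thetaDisc`, `thetaDisc_qParam`, …) stay in
`S20/LowDJ.lean`.
-/
import Fermat.Agent.S20.LowDJ
import Fermat.Agent.S20.CuspZeroDJ
import Fermat.Agent.DS.G.X0.CuspGood
import Fermat.Agent.DS.G.X0.Realize

set_option autoImplicit false

open UpperHalfPlane hiding I
open Complex Filter Function Topology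
open scoped Manifold MatrixGroups ModularForm Nat

namespace Fermat.Agent.DS.G.S20.ThetaJ

open Fermat.Agent.X0 Fermat.Agent.X0.JQExp Fermat.Agent.S20.LowDJ
open Fermat.Agent.DS.G.X0.CuspGood (jNumc jNumc_map)

noncomputable section

local notation "𝕢" => Periodic.qParam

variable (Lc : Type) [Field Lc] [Algebra ℚ Lc] (ι : Lc →+* ℂ)

/-- The numerator of `θ j = q d/dq (j)` over `Lc`: `q * θ j = ∑ (n - 1) c_n q^n`. -/
def thetaNumc : PowerSeries Lc :=
  PowerSeries.mk fun n => ((n : Lc) - 1) * PowerSeries.coeff n (jNumc Lc)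

theorem coeff_thetaNumc (n : ℕ) :
    PowerSeries.coeff n (thetaNumc Lc) = ((n : Lc) - 1) * PowerSeries.coeff n (jNumc Lc) := by
  rw [thetaNumc, PowerSeries.coeff_mk]

theorem map_thetaNumc : (thetaNumc Lc).map ι = tps thetaDisc := by
  rw [tps_thetaDisc, tps_jDisc]
  ext n
  have h := congrArg (PowerSeries.coeff n) (jNumc_map Lc ι)
  rw [PowerSeries.coeff_map] at h
  simp only [thetaNumc, PowerSeries.coeff_map, PowerSeries.coeff_mk, map_mul, map_sub, map_natCast,
    map_one]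
  rw [h]
  simp [jNumC, ModularCurve.jNumQ, PowerSeries.coeff_map]

theorem isQExp_DJ : IsQExp 1 DJ 1 ((thetaNumc Lc).map ι) := by
  intro z
  have hq : qh 1 z = 𝕢 1 (z : ℂ) := by simp [qh]
  have hq1 : ‖𝕢 1 (z : ℂ)‖ < 1 := by simpa using norm_qParam_lt_one 1 z
  rw [hq, pow_one, mul_comm, ← thetaDisc_qParam, map_thetaNumc]
  exact hasSum_tps differentiableOn_thetaDisc hq1

theorem coeff_zero_thetaNumc : PowerSeries.coeff 0 (thetaNumc Lc) = -1 := by
  have h : PowerSeries.coeff 0 (jNumc Lc) = 1 := by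
    simp [jNumc, PowerSeries.coeff_map, ModularCurve.constantCoeff_jNumQ]
  simp [thetaNumc, h]

theorem thetaNumc_ne_zero : thetaNumc Lc ≠ 0 := by
  intro h
  have := coeff_zero_thetaNumc Lc
  rw [h] at this
  simp at this

/-- Every coefficient of `thetaNumc Lc` is rational. -/
theorem thetaNumc_rat (n : ℕ) :
    ∃ r : ℚ, PowerSeries.coeff n (thetaNumc Lc) = algebraMap ℚ Lc r := by
  refine ⟨((n : ℚ) - 1) * PowerSeries.coeff n ModularCurve.jNumQ, ?_⟩
  rw [coeff_thetaNumc, jNumc, PowerSeries.coeff_map, map_mul, map_sub, map_natCast, map_one]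

/-- The formal `θ j = q d/dq j ∈ Lc((q))`. -/
def thetaJc : LaurentSeries Lc := laurentOf 1 (thetaNumc Lc)

theorem thetaJc_ne_zero : thetaJc Lc ≠ 0 := fun h =>
  thetaNumc_ne_zero Lc ((laurentOf_eq_zero_iff 1 (thetaNumc Lc)).mp h)

theorem coeff_thetaJc_of_lt (n : ℤ) (hn : n < -1) : (thetaJc Lc).coeff n = 0 := by
  rw [thetaJc, lor_laurentOf_coeff, if_neg]
  push_cast
  omega

/-- `thetaJc` is the `q`-expansion of `DJ` (generic twin of `S20/CuspZeroDJ.hasQExp_DJ`). -/
theorem hasQExp_DJ : Analytic.HasQExp (Fermat.Agent.DS.G.X0.Realize.toCι ι (thetaJc Lc)) DJ := by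
  rw [thetaJc, Fermat.Agent.DS.G.X0.Realize.toCι, lor_coeffMap_laurentOf]
  exact intg_hasQExp_of_isQExp (isQExp_DJ Lc ι)

/-- At `Lc = ℚbar` this is the original `LowDJ.thetaJ`. -/
theorem thetaNumc_Kbar : thetaNumc Kbar = thetaNumK := rfl

theorem thetaJc_Kbar : thetaJc Kbar = thetaJ := rfl

/-- Every coefficient of `thetaJc Lc` is rational. -/
theorem thetaJc_rat (k : ℤ) : ∃ r : ℚ, (thetaJc Lc).coeff k = algebraMap ℚ Lc r := by
  rw [thetaJc, lor_laurentOf_coeff]
  split_ifs with h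
  · exact thetaNumc_rat Lc _
  · exact ⟨0, (map_zero _).symm⟩

end

end Fermat.Agent.DS.G.S20.ThetaJ
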