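/-
Programme DS (S48), chapter G-DIM, brick DIM-5 (helper89; generalised from `ℚbar` to an arbitrary coefficient field `(Lc, ι : Lc →+* ℂ)` by helper26): generic twin of `S20/CuspZeroDJ.lean`:
`CuspZero.exists_cuspForm_of_orders'` (generic level `L`) instantiated with `LowDJ.DJ`
(`= D jFun = -E₄² E₆ / Δ`) and `ThetaJ.thetaJc Lc` (`= q d/dq j ∈ Lc((q))`), both level-free.
-/
import Fermat.Agent.DS.G.S20.CuspZero
import Fermat.Agent.DS.G.S20.ThetaJ

set_option autoImplicit false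

open ModularCurve UpperHalfPlane ModularForm
open scoped Topology Manifold MatrixGroups

noncomputable section

namespace Fermat.Agent.DS.G.S20.CuspZeroDJ

open Fermat.Agent.X0 Fermat.Agent.X0.Analytic Fermat.Agent.S20.LowDJ
open Fermat.Agent.DS.G.Level Fermat.Agent.DS.G.S20.CuspZero
open Fermat.Agent.DS.G.S20.ThetaJ (thetaJc hasQExp_DJ coeff_thetaJc_of_lt)

variable (L : LevelData) {Lc : Type} [Field Lc] [Algebra ℚ Lc] {ι : Lc →+* ℂ} (D : RealizeDataL L Lc ι)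
  (C : CuspDataL L Lc ι D)

/-- **LOW, cusp half, for `DJ` and `thetaJc Lc`.** A holomorphic `H` with `H * Θ s = Θ r * DJ` such
that all cusp expansions `T_γ (r/s)` have order `> w` is a cusp form of weight two on `L.Gam` with
`q`-coefficients `ι (coeff ((r/s) * thetaJc Lc))`. -/
theorem exists_cuspForm (hT : ModularGroup.T ∈ L.Gam)
    (r s : Rsubc L Lc) (hs : s ≠ 0) (H : ℍ → ℂ) (hH : H ∈ HolH)
    (hmul : ∀ z, H z * D.Θ s z = D.Θ r z * DJ z)
    (hord : ∀ γ : SL(2, ℤ), (r : FFc L Lc) = 0 ∨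
      (L.w : ℤ) < (C.T γ ((r : FFc L Lc) / (s : FFc L Lc))).order) :
    ∃ f : CuspForm (L.Gam : Subgroup (GL (Fin 2) ℝ)) 2, (⇑f = H) ∧
      ∀ n : ℕ, ModularFormClass.qCoeff f n
        = ι (((((r : FFc L Lc) / (s : FFc L Lc) : FFc L Lc) : LaurentSeries Lc) * thetaJc Lc).coeff n) :=
  exists_cuspForm_of_orders' L D C hT DJ (thetaJc Lc) DJ_smul (hasQExp_DJ Lc ι)
    (coeff_thetaJc_of_lt Lc) r s hs H hH
    hmul hord

/-- `exists_cuspForm` together with the vanishing of the negative coefficients of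
`(r/s) * thetaJc Lc`. -/
theorem exists_cuspForm_full (hT : ModularGroup.T ∈ L.Gam)
    (r s : Rsubc L Lc) (hs : s ≠ 0) (H : ℍ → ℂ) (hH : H ∈ HolH)
    (hmul : ∀ z, H z * D.Θ s z = D.Θ r z * DJ z)
    (hord : ∀ γ : SL(2, ℤ), (r : FFc L Lc) = 0 ∨
      (L.w : ℤ) < (C.T γ ((r : FFc L Lc) / (s : FFc L Lc))).order) :
    ∃ f : CuspForm (L.Gam : Subgroup (GL (Fin 2) ℝ)) 2, (⇑f = H) ∧
      (∀ n : ℕ, ModularFormClass.qCoeff f n
        = ι (((((r : FFc L Lc) / (s : FFc L Lc) : FFc L Lc) : LaurentSeries Lc) * thetaJc Lc).coeff n)) ∧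
      ∀ k : ℤ, k < 0 →
        ((((r : FFc L Lc) / (s : FFc L Lc) : FFc L Lc) : LaurentSeries Lc) * thetaJc Lc).coeff k = 0 :=
  exists_cuspForm_of_orders_full' L D C hT DJ (thetaJc Lc) DJ_smul (hasQExp_DJ Lc ι)
    (coeff_thetaJc_of_lt Lc) r s hs H
    hH hmul hord

end Fermat.Agent.DS.G.S20.CuspZeroDJ
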