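/-
Programme DS (S48), chapter G-DIM, brick DIM-5 (helper89; generalised from `ℚbar` to an arbitrary coefficient field `(Lc, ι : Lc →+* ℂ)` by helper26): generic twin of `S20/LowCuspOrd.lean`.

Regularity of the differential `h • d j` at the places over `j = ∞` forces the cusp expansions
`C.T g h` to have `q_w`-order at least `w + 1` (`w = L.w`).

At the place `v = cuspPlace hC g⁻¹` (order function `f ↦ (C.T g f).order / m`, `m * ord_v j = -w`)
one has `ord_v (h dj) = ord_v h + ord_v j - 1`, so `0 ≤ ord_v (h dj)` gives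
`(C.T g h).order = m * ord_v h ≥ m * (1 - ord_v j) = m + w ≥ w + 1`.

Written against `(L : LevelData) (RD : RealizeDataL L Lc ι) (C : CuspDataL L Lc ι RD)` on top of helper26's twin
`DS/G/X0/CuspPlaces` (`hC : CuspPlaces.Good C`); same theorem names as the original.
-/
import Fermat.Agent.DS.G.X0.CuspPlaces
import Fermat.Agent.X0.FFGenusCore

set_option autoImplicit false
set_option synthInstance.maxHeartbeats 400000
set_option maxHeartbeats 1000000

open AlgebraicCurve UpperHalfPlane KaehlerDifferential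
open scoped MatrixGroups

noncomputable section

namespace Fermat.Agent.DS.G.S20.LowCuspOrd

open Fermat.Agent.X0 Fermat.Agent.DS.G.Level Fermat.Agent.DS.G.X0.CuspPlaces

variable {L : LevelData} {Lc : Type} [Field Lc] [Algebra ℚ Lc] {ι : Lc →+* ℂ} {RD : RealizeDataL L Lc ι}
  {C : CuspDataL L Lc ι RD}

/-- The order at one cusp place: regularity of `h • dj` at `cuspPlace hC g⁻¹` gives
`w + 1 ≤ ord_{q_w} (C.T g h)`. -/
theorem order_T_ge_of_regular_at (hC : Good C) (H : FF.GenusHyp Lc (jFc L Lc)) {h : FFc L Lc}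
    (hh : h ≠ 0) (g : SL(2, ℤ))
    (hreg : 0 ≤ (cuspPlace hC g⁻¹).ordDifferential (h • D Lc (FFc L Lc) (jFc L Lc))) :
    (L.w : ℤ) + 1 ≤ (C.T g h).order := by
  obtain ⟨m, hm, hspec, hmj⟩ := cuspPlace_spec hC g⁻¹
  rw [inv_inv] at hspec
  set v := cuspPlace hC g⁻¹ with hv
  have hjneg : v.ord (jFc L Lc) < 0 := cuspPlace_ord_jF_neg hC g⁻¹
  have hD : v.ordDifferential (D Lc (FFc L Lc) (jFc L Lc)) = v.ord (jFc L Lc) - 1 :=
    H.ordDifferential_D_of_ord_ne_zero v (jFc L Lc) (ne_of_lt hjneg)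
  have hsm : v.ordDifferential (h • D Lc (FFc L Lc) (jFc L Lc)) = v.ord h + (v.ord (jFc L Lc) - 1) := by
    rw [H.ordDifferential_smul' v h hh _ H.D_ne_zero, hD]
  rw [hsm] at hreg
  rw [hspec h hh]
  have hm' : (1 : ℤ) ≤ m := by exact_mod_cast hm
  have h1 : 1 - v.ord (jFc L Lc) ≤ v.ord h := by linarith
  have h2 : (m : ℤ) * (1 - v.ord (jFc L Lc)) ≤ m * v.ord h :=
    mul_le_mul_of_nonneg_left h1 (by linarith)
  have h3 : (m : ℤ) * (1 - v.ord (jFc L Lc)) = m + L.w := by
    rw [mul_sub, mul_one, hmj]; ring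
  linarith

/-- Regular differentials `h • dj` have cusp expansions of `q_N`-order at least `N + 1`
at every cusp. -/
theorem order_T_ge_of_regular (hC : Good C) (H : FF.GenusHyp Lc (jFc L Lc)) {h : FFc L Lc}
    (hh : h ≠ 0)
    (hreg : ∀ v : Place Lc (FFc L Lc), 0 ≤ v.ordDifferential (h • D Lc (FFc L Lc) (jFc L Lc)))
    (g : SL(2, ℤ)) : (L.w : ℤ) + 1 ≤ (C.T g h).order :=
  order_T_ge_of_regular_at hC H hh g (hreg _)

/-- `orderTop` version, valid for `h = 0` as well. -/
theorem orderTop_T_ge_of_regular (hC : Good C) (H : FF.GenusHyp Lc (jFc L Lc)) (h : FFc L Lc)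
    (hreg : ∀ v : Place Lc (FFc L Lc), 0 ≤ v.ordDifferential (h • D Lc (FFc L Lc) (jFc L Lc)))
    (g : SL(2, ℤ)) : (((L.w : ℤ) + 1 : ℤ) : WithTop ℤ) ≤ (C.T g h).orderTop := by
  by_cases hh : h = 0
  · subst hh
    rw [map_zero, HahnSeries.orderTop_zero]
    exact le_top
  · have hne : C.T g h ≠ 0 := LaurentPlace.emb_ne_zero (C.T g) hh
    rw [HahnSeries.orderTop_of_ne_zero hne, ← HahnSeries.order_of_ne hne]
    exact_mod_cast order_T_ge_of_regular hC H hh hreg g

/-- Coefficient form: all coefficients of `C.T g h` of index `≤ N` vanish. -/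
theorem coeff_T_eq_zero_of_regular (hC : Good C) (H : FF.GenusHyp Lc (jFc L Lc)) (h : FFc L Lc)
    (hreg : ∀ v : Place Lc (FFc L Lc), 0 ≤ v.ordDifferential (h • D Lc (FFc L Lc) (jFc L Lc)))
    (g : SL(2, ℤ)) {k : ℤ} (hk : k ≤ L.w) : (C.T g h).coeff k = 0 := by
  apply HahnSeries.coeff_eq_zero_of_lt_orderTop
  refine lt_of_lt_of_le ?_ (orderTop_T_ge_of_regular hC H h hreg g)
  exact_mod_cast (by omega : k < (L.w : ℤ) + 1)

end Fermat.Agent.DS.G.S20.LowCuspOrd
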