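/-
Programme DS (S48), chapter G-DIM, brick DIM-5 (helper89; generalised from `ℚbar` to an arbitrary coefficient field `(Lc, ι : Lc →+* ℂ)` by helper26): generic twin of `S20/LowHolo.lean`.

# LOW, part 3: a regular differential `h dj` gives a holomorphic function on `ℍ`

Let `h = r / s ∈ F = FFc L Lc` (`r, s ∈ R`, `s ≠ 0`) be such that `h dj` is regular at every place of
`F`, and let `J` be a holomorphic function with `ord_z J + 1 = ellOrder z` (e.g. `J = D j`).
Then `ord_z (Θ s) ≤ ord_z (Θ r * J)` at every `z ∈ ℍ`, hence `Θ r * J = H * Θ s` with `H`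
holomorphic on `ℍ`.

Written against `(L : LevelData) (D : RealizeDataL L Lc ι)` on top of helper26's twins
`DS/G/X0/PointPlaces(D)` and helper95's `DS/G/X0/FracR`; the input from the twin of `Degree.lean`
(`Θ_ne_zero_of_transcendental`) enters as the hypothesis `TransNonvanishing D`.
Same theorem names as the original.
-/
import Fermat.Agent.DS.G.X0.PointPlacesD
import Fermat.Agent.DS.G.X0.FracR
import Fermat.Agent.X0.FFGenusCore
import Fermat.Agent.S20.LowDivide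
import Fermat.Agent.S20.LowHolo

set_option autoImplicit false
set_option linter.unusedSectionVars false
set_option synthInstance.maxHeartbeats 400000
set_option maxHeartbeats 1000000

open UpperHalfPlane hiding I
open Complex Filter Function Topology
open scoped Manifold MatrixGroups

namespace Fermat.Agent.DS.G.S20.LowHolo

open Fermat.Agent.X0 Fermat.Agent.X0.JOrderMain AlgebraicCurve Fermat.Agent.DS.G.Level
  Fermat.Agent.DS.G.X0.PointPlaces Fermat.Agent.DS.G.X0.PointPlacesD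
open Fermat.Agent.S20.LowHolo (ordH_zero_fun)

noncomputable section

variable {L : LevelData} {Lc : Type} [Field Lc] [Algebra ℚ Lc] {ι : Lc →+* ℂ} (D : RealizeDataL L Lc ι)

/-- Hypothesis (from `Degree.lean`): nonzero elements of `R` do not vanish at points with
transcendental `j`-value. -/
def TransNonvanishing : Prop :=
  ∀ s : Rsubc L Lc, s ≠ 0 → ∀ z₀ : ℍ, jFun z₀ ∉ Set.range ι → D.Θ s z₀ ≠ 0

theorem coe_ne_zero {u : Rsubc L Lc} (hu : u ≠ 0) : (u : FFc L Lc) ≠ 0 :=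
  fun h => hu (Subtype.ext h)

/-- `dj = d(j - c)`. -/
theorem D_jF_sub (c : Lc) :
    KaehlerDifferential.D Lc (FFc L Lc) (jFc L Lc - algebraMap Lc (FFc L Lc) c) =
      KaehlerDifferential.D Lc (FFc L Lc) (jFc L Lc) := by
  rw [map_sub, Derivation.map_algebraMap, sub_zero]

/-- The order inequality at a point with algebraic `j`-value. -/
theorem ordH_le_of_regular_alg (H : FF.GenusHyp Lc (jFc L Lc)) {J : ℍ → ℂ} (hJ : J ∈ HolH)
    (hJord : ∀ z, ordH J z + 1 = ellOrder z) (r s : Rsubc L Lc) (hs : s ≠ 0)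
    (hreg : ∀ v : Place Lc (FFc L Lc),
      0 ≤ v.ordDifferential (((r : FFc L Lc) / (s : FFc L Lc)) • KaehlerDifferential.D Lc (FFc L Lc) (jFc L Lc)))
    (z₀ : ℍ) (c : Lc) (hc : jFun z₀ = ι c) :
    ordH (D.Θ s) z₀ ≤ ordH (D.Θ r * J) z₀ := by
  rcases eq_or_ne r 0 with rfl | hr
  · rw [map_zero, zero_mul, ordH_zero_fun]
    exact le_top
  set v := pointPlaceD D z₀ c hc 1 with hv
  set m := pointMultD D z₀ c hc 1 with hm
  have hmpos : 0 < m := pointMultD_pos D z₀ c hc 1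
  have hspec : ∀ u : Rsubc L Lc, u ≠ 0 → ((ordH (D.Θ u) z₀).toNat : ℤ) = m * v.ord (u : FFc L Lc) := by
    intro u hu
    have := pointPlaceD_spec D z₀ c hc 1 u hu
    rwa [inv_one, compSL_one] at this
  have hne : ∀ u : Rsubc L Lc, u ≠ 0 → ordH (D.Θ u) z₀ ≠ ⊤ := by
    intro u hu
    have := ordH_ne_top_D D z₀ 1 u hu
    rwa [inv_one, compSL_one] at this
  have he := pointMultD_mul_ord D z₀ c hc 1
  have hepos := pointPlaceD_ord_pos D z₀ c hc 1
  set ev := v.ord (jFc L Lc - algebraMap Lc (FFc L Lc) c) with hev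
  -- regularity at `v`
  have hrF := coe_ne_zero hr
  have hsF := coe_ne_zero hs
  have hh : (r : FFc L Lc) / (s : FFc L Lc) ≠ 0 := div_ne_zero hrF hsF
  have h1 := hreg v
  rw [H.ordDifferential_smul' v _ hh _ H.D_ne_zero, ← D_jF_sub c,
    H.ordDifferential_D_of_ord_ne_zero v _ hepos.ne', ← hev] at h1
  have h2 : v.ord ((r : FFc L Lc) / (s : FFc L Lc)) = v.ord (r : FFc L Lc) - v.ord (s : FFc L Lc) := by
    rw [div_eq_mul_inv, v.ord_mul hrF (inv_ne_zero hsF), v.ord_inv]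
    ring
  rw [h2] at h1
  -- translate to orders on `ℍ`
  have ha := hspec r hr
  have hb := hspec s hs
  have hmZ : (1 : ℤ) ≤ m := by exact_mod_cast hmpos
  have key : ((ordH (D.Θ s) z₀).toNat : ℤ) + 1 ≤ (ordH (D.Θ r) z₀).toNat + ellOrder z₀ := by
    rw [ha, hb, ← he]
    nlinarith
  -- conclude in `ℕ∞`
  rw [ordH_mul (D.mem_HolH r) hJ]
  have hJ' := hJord z₀
  have hJne : ordH J z₀ ≠ ⊤ := by
    intro h
    rw [h] at hJ'
    simp at hJ'
  obtain ⟨a, ha'⟩ : ∃ a : ℕ, ordH (D.Θ r) z₀ = a := ⟨_, (ENat.natCast_toNat (hne r hr)).symm⟩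
  obtain ⟨b, hb'⟩ : ∃ b : ℕ, ordH (D.Θ s) z₀ = b := ⟨_, (ENat.natCast_toNat (hne s hs)).symm⟩
  obtain ⟨k, hk'⟩ : ∃ k : ℕ, ordH J z₀ = k := ⟨_, (ENat.natCast_toNat hJne).symm⟩
  rw [ha', hb'] at key
  rw [hk'] at hJ'
  rw [ha', hb', hk']
  simp only [ENat.toNat_natCast] at key
  have hJ'' : k + 1 = ellOrder z₀ := by exact_mod_cast hJ'
  have key' : b + 1 ≤ a + ellOrder z₀ := by exact_mod_cast key
  have : b ≤ a + k := by omega
  exact_mod_cast this

/-- The order inequality at every point. -/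
theorem ordH_le_of_regular (H : FF.GenusHyp Lc (jFc L Lc)) (htr : TransNonvanishing D)
    {J : ℍ → ℂ} (hJ : J ∈ HolH)
    (hJord : ∀ z, ordH J z + 1 = ellOrder z) (r s : Rsubc L Lc) (hs : s ≠ 0)
    (hreg : ∀ v : Place Lc (FFc L Lc),
      0 ≤ v.ordDifferential (((r : FFc L Lc) / (s : FFc L Lc)) • KaehlerDifferential.D Lc (FFc L Lc) (jFc L Lc)))
    (z₀ : ℍ) : ordH (D.Θ s) z₀ ≤ ordH (D.Θ r * J) z₀ := by
  by_cases hz : jFun z₀ ∈ Set.range ι
  · obtain ⟨c, hc⟩ := hz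
    exact ordH_le_of_regular_alg D H hJ hJord r s hs hreg z₀ c hc.symm
  · have h0 : ordH (D.Θ s) z₀ = 0 := (ordH_eq_zero_iff (D.mem_HolH s) z₀).mpr (htr s hs z₀ hz)
    rw [h0]
    exact zero_le

/-- MAIN: the holomorphic function `H = (Θ r / Θ s) * J` on `ℍ`. -/
theorem exists_holo_of_regular (H : FF.GenusHyp Lc (jFc L Lc)) (htr : TransNonvanishing D)
    {J : ℍ → ℂ} (hJ : J ∈ HolH)
    (hJord : ∀ z, ordH J z + 1 = ellOrder z) (r s : Rsubc L Lc) (hs : s ≠ 0)
    (hreg : ∀ v : Place Lc (FFc L Lc),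
      0 ≤ v.ordDifferential (((r : FFc L Lc) / (s : FFc L Lc)) • KaehlerDifferential.D Lc (FFc L Lc) (jFc L Lc))) :
    ∃ Hf : ℍ → ℂ, Hf ∈ HolH ∧ ∀ z, Hf z * D.Θ s z = D.Θ r z * J z := by
  have hs0 : D.Θ s ≠ 0 := fun h => hs (D.injective (by rw [h, map_zero]))
  obtain ⟨Hf, hHf, hmul⟩ := Fermat.Agent.S20.LowDivide.exists_div_HolH (HolH.mul_mem (D.mem_HolH r) hJ)
    (D.mem_HolH s) hs0 (ordH_le_of_regular D H htr hJ hJord r s hs hreg)
  exact ⟨Hf, hHf, fun z => congrFun hmul z⟩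

end

end Fermat.Agent.DS.G.S20.LowHolo
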