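/-
Programme DS (S48), chapter G-DIM, brick DIM-5 (helper89; generalised from `ℚbar` to an arbitrary
coefficient field `(Lc, ι : Lc →+* ℂ)` by helper26): generic twin of `S20/Low.lean`.

ASSEMBLY of the dictionary "regular differential ⇒ cusp form" at an abstract level
`L : LevelData`:

for `h ∈ F = FFc L Lc` such that the differential `h • dj` is regular at every place of `F / ℚbar`,
there is a cusp form `f ∈ S₂(L.Gam)` whose `q`-expansion coefficients are
`ι (coeff n (h * θ_j))`, `θ_j = q dj/dq ∈ ℚbar((q))`; moreover `h * θ_j` has no coefficients in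
negative degrees.

Inputs: the twins `LowHolo` (holomorphy on `ℍ`), `LowCuspOrd` (orders at the cusp places),
`CuspZeroDJ` (the cusp form and its `q`-coefficients), helper26's `DS/G/X0/CuspGood`, helper95's
`DS/G/X0/FracR`.

The inputs of the twin of `Degree` (not yet available when this file was written) enter as two
hypotheses:
* `hgen : FF.IsGen Lc (jFc L Lc)`                   (`Degree.isGen_jF`),
* `htr : LowHolo.TransNonvanishing RD`             (`Degree.Θ_ne_zero_of_transcendental`),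
and the only extra hypothesis on the level is `hT : ModularGroup.T ∈ L.Gam` (width one at `∞`).
-/
import Fermat.Agent.DS.G.S20.LowHolo
import Fermat.Agent.DS.G.S20.LowCuspOrd
import Fermat.Agent.DS.G.S20.CuspZeroDJ
import Fermat.Agent.DS.G.X0.CuspGood
import Fermat.Agent.DS.G.X0.FracR
import Fermat.Agent.X0.FFGenus

set_option autoImplicit false
set_option synthInstance.maxHeartbeats 400000
set_option maxHeartbeats 1000000

open AlgebraicCurve UpperHalfPlane ModularForm
open scoped MatrixGroups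

noncomputable section

namespace Fermat.Agent.DS.G.S20.Low

open Fermat.Agent.X0 Fermat.Agent.S20.LowDJ Fermat.Agent.DS.G.Level
open Fermat.Agent.DS.G.S20.ThetaJ (thetaJc)

variable {L : LevelData} {Lc : Type} [Field Lc] [Algebra ℚ Lc] {ι : Lc →+* ℂ}

/-- The dictionary, for arbitrary realisation and cusp data. -/
theorem exists_cuspForm_of_regular_aux (RD : RealizeDataL L Lc ι) (C : CuspDataL L Lc ι RD)
    (hT : ModularGroup.T ∈ L.Gam) (H : FF.GenusHyp Lc (jFc L Lc))
    (htr : LowHolo.TransNonvanishing RD) (h : FFc L Lc)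
    (hreg : ∀ v : Place Lc (FFc L Lc),
      0 ≤ v.ordDifferential (h • KaehlerDifferential.D Lc (FFc L Lc) (jFc L Lc))) :
    ∃ f : CuspForm (L.Gam : Subgroup (GL (Fin 2) ℝ)) 2, ∀ n : ℕ,
      ModularFormClass.qCoeff f n = ι (((h : LaurentSeries Lc) * thetaJc Lc).coeff n) := by
  obtain ⟨r, s, hs, rfl⟩ := X0.FracR.exists_div_ne_zero L Lc h
  obtain ⟨Hf, hHf, hmul⟩ := LowHolo.exists_holo_of_regular RD H htr DJ_mem_HolH ordH_DJ_add_one
    r s hs hreg
  have hord : ∀ γ : SL(2, ℤ), (r : FFc L Lc) = 0 ∨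
      (L.w : ℤ) < (C.T γ ((r : FFc L Lc) / (s : FFc L Lc))).order := by
    intro γ
    by_cases hr : (r : FFc L Lc) = 0
    · exact Or.inl hr
    · right
      have hs' : (s : FFc L Lc) ≠ 0 := fun h0 => hs (Subtype.ext h0)
      have hne : (r : FFc L Lc) / (s : FFc L Lc) ≠ 0 := div_ne_zero hr hs'
      have := LowCuspOrd.order_T_ge_of_regular (X0.CuspGood.good C) H hne hreg γ
      omega
  obtain ⟨f, -, hf⟩ := CuspZeroDJ.exists_cuspForm L RD C hT r s hs Hf hHf hmul hord
  exact ⟨f, hf⟩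

/-- The dictionary with the vanishing of the negative coefficients, for arbitrary realisation
and cusp data. -/
theorem exists_cuspForm_of_regular_full_aux (RD : RealizeDataL L Lc ι) (C : CuspDataL L Lc ι RD)
    (hT : ModularGroup.T ∈ L.Gam) (H : FF.GenusHyp Lc (jFc L Lc))
    (htr : LowHolo.TransNonvanishing RD) (h : FFc L Lc)
    (hreg : ∀ v : Place Lc (FFc L Lc),
      0 ≤ v.ordDifferential (h • KaehlerDifferential.D Lc (FFc L Lc) (jFc L Lc))) :
    ∃ f : CuspForm (L.Gam : Subgroup (GL (Fin 2) ℝ)) 2,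
      (∀ n : ℕ, ModularFormClass.qCoeff f n
        = ι (((h : LaurentSeries Lc) * thetaJc Lc).coeff n)) ∧
      ∀ k : ℤ, k < 0 → ((h : LaurentSeries Lc) * thetaJc Lc).coeff k = 0 := by
  obtain ⟨r, s, hs, rfl⟩ := X0.FracR.exists_div_ne_zero L Lc h
  obtain ⟨Hf, hHf, hmul⟩ := LowHolo.exists_holo_of_regular RD H htr DJ_mem_HolH ordH_DJ_add_one
    r s hs hreg
  have hord : ∀ γ : SL(2, ℤ), (r : FFc L Lc) = 0 ∨
      (L.w : ℤ) < (C.T γ ((r : FFc L Lc) / (s : FFc L Lc))).order := by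
    intro γ
    by_cases hr : (r : FFc L Lc) = 0
    · exact Or.inl hr
    · right
      have hs' : (s : FFc L Lc) ≠ 0 := fun h0 => hs (Subtype.ext h0)
      have hne : (r : FFc L Lc) / (s : FFc L Lc) ≠ 0 := div_ne_zero hr hs'
      have := LowCuspOrd.order_T_ge_of_regular (X0.CuspGood.good C) H hne hreg γ
      omega
  obtain ⟨f, -, hf, hneg⟩ := CuspZeroDJ.exists_cuspForm_full L RD C hT r s hs Hf hHf hmul hord
  exact ⟨f, hf, hneg⟩

/-- **LOW**: a regular differential `h • dj` of `F = FFc L Lc` gives a cusp form of weight two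
on `L.Gam` with `q`-expansion `ι (h * θ_j)`; with the inputs of the `Degree` twin as hypotheses
(`hgen` = `Degree.isGen_jF`, `htr` = `Degree.Θ_ne_zero_of_transcendental`). -/
theorem exists_cuspForm_of_regular [IsAlgClosed Lc] [CharZero Lc] (RD : RealizeDataL L Lc ι) (C : CuspDataL L Lc ι RD)
    (hT : ModularGroup.T ∈ L.Gam) (hgen : FF.IsGen Lc (jFc L Lc))
    (htr : ∀ s : Rsubc L Lc, s ≠ 0 → ∀ z₀ : ℍ, jFun z₀ ∉ Set.range ι → RD.Θ s z₀ ≠ 0)
    (h : FFc L Lc)
    (hreg : ∀ v : Place Lc (FFc L Lc),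
      0 ≤ v.ordDifferential (h • KaehlerDifferential.D Lc (FFc L Lc) (jFc L Lc))) :
    ∃ f : CuspForm (L.Gam : Subgroup (GL (Fin 2) ℝ)) 2, ∀ n : ℕ,
      ModularFormClass.qCoeff f n = ι (((h : LaurentSeries Lc) * thetaJc Lc).coeff n) :=
  exists_cuspForm_of_regular_aux RD C hT (FFGenus.genusHyp hgen) htr h hreg

/-- **LOW, full form**: a regular differential `h • dj` of `F = FFc L Lc` gives a cusp form of
weight two on `L.Gam` with `q`-expansion `ι (h * θ_j)`; moreover `h * θ_j` has no coefficients in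
negative degrees. -/
theorem exists_cuspForm_of_regular_full [IsAlgClosed Lc] [CharZero Lc] (RD : RealizeDataL L Lc ι) (C : CuspDataL L Lc ι RD)
    (hT : ModularGroup.T ∈ L.Gam) (hgen : FF.IsGen Lc (jFc L Lc))
    (htr : ∀ s : Rsubc L Lc, s ≠ 0 → ∀ z₀ : ℍ, jFun z₀ ∉ Set.range ι → RD.Θ s z₀ ≠ 0)
    (h : FFc L Lc)
    (hreg : ∀ v : Place Lc (FFc L Lc),
      0 ≤ v.ordDifferential (h • KaehlerDifferential.D Lc (FFc L Lc) (jFc L Lc))) :
    ∃ f : CuspForm (L.Gam : Subgroup (GL (Fin 2) ℝ)) 2,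
      (∀ n : ℕ, ModularFormClass.qCoeff f n
        = ι (((h : LaurentSeries Lc) * thetaJc Lc).coeff n)) ∧
      ∀ k : ℤ, k < 0 → ((h : LaurentSeries Lc) * thetaJc Lc).coeff k = 0 :=
  exists_cuspForm_of_regular_full_aux RD C hT (FFGenus.genusHyp hgen) htr h hreg

/-! ### the case `Lc = ℂ`, `ι = id` (used by chapter G-DIM) -/

/-- Over `ℂ` (with `ι = id`) the hypothesis `htr` is vacuous. -/
theorem transNonvanishing_id (RD : RealizeDataL L ℂ (RingHom.id ℂ)) :
    LowHolo.TransNonvanishing RD :=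
  fun _ _ z₀ hz => absurd ⟨jFun z₀, rfl⟩ hz

/-- **LOW over `ℂ`**: a regular differential `h • dj` of `F = FFc L ℂ` gives a cusp form of weight
two on `L.Gam` whose `q`-expansion is `h * θ_j`. -/
theorem exists_cuspForm_of_regular_full_C (RD : RealizeDataL L ℂ (RingHom.id ℂ))
    (C : CuspDataL L ℂ (RingHom.id ℂ) RD) (hT : ModularGroup.T ∈ L.Gam)
    (H : FF.GenusHyp ℂ (jFc L ℂ)) (h : FFc L ℂ)
    (hreg : ∀ v : Place ℂ (FFc L ℂ),
      0 ≤ v.ordDifferential (h • KaehlerDifferential.D ℂ (FFc L ℂ) (jFc L ℂ))) :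
    ∃ f : CuspForm (L.Gam : Subgroup (GL (Fin 2) ℝ)) 2,
      (∀ n : ℕ, ModularFormClass.qCoeff f n = ((h : LaurentSeries ℂ) * thetaJc ℂ).coeff n) ∧
      ∀ k : ℤ, k < 0 → ((h : LaurentSeries ℂ) * thetaJc ℂ).coeff k = 0 :=
  exists_cuspForm_of_regular_full_aux RD C hT H (transNonvanishing_id RD) h hreg

end Fermat.Agent.DS.G.S20.Low
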